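import Mathlib
import Fermat.Agent.LT.T7.H801.BaseQCutSpec

/-!
# Row LT, tower T7, node T7.L2Q.1.H2a.A `CQ801.PairAQC801` (the FIRST pair over `ℚ`, registry row
# 2855; sub-architect helper327): THE CUT -- Spec

OFF-MAIN.  Definitions and frozen Props only (the proved top is `PairAQTop.lean`).  No hole,
nothing assumed.  ADDITIVE (new names only, suffix `327`, namespace
`Fermat.Agent.LT.T7.AQ327`).  Vocabulary: the second cut of helper801
(`T7/H801/BaseQCutSpec.lean`, helper801@6ce712ecc) and its imports, byte-identical copies.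

MIRROR over `ℚ` of the second cut of helper981 of the cubic node `Q797.PairAC797`
(`T7/B981/PairASpec.lean`, helper981@665489bd4): INDUCTION ON THE WORD.

    pairAQC_of327 : BaseAQC327 P F → StepTQC327 F → StepSQC327 F → StepMQC327 F
                      → CQ801.PairAQC801 P F                                   (VERBATIM)

## The cut

The fields of `CQ801.IsPairAQ801` are of two kinds.

* **Word-free** (`IsGoodAQ327 φ f`, for ONE triple `φ` (over `F`), `f w0`, `f w1` (over `ℚ`)):
  test functions of the levels and of the two types, Eisenstein-killing with Eisenstein-killing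
  adjoints, the supports, the local shape of record
  `IsAvgPureQ801 … (LocAQ801 c T₀ n m) 1 φ (f w0) (f w1)`.
* **Operators**: `R(Φ₁ X) χ = X(C) c₁(C) χ` upstairs, `R(F₁ t X) χ = X(C) R(F₁ t []) χ`
  downstairs for both types `t` (`C` the base change of the eigen-data `c` of `χ`:
  `IsBCDataQ t c C B.S`), and the three fields on `F₁ t []`.

So `Φ₁ (x :: X)`, `F₁ t (x :: X)` are obtained from `Φ₁ X`, `F₁ t X` by ONE STEP which multiplies
the operators by `x(C)` and preserves `IsGoodAQ327`:

* **`BaseAQC327 P F`** (NODE; the empty word): the Eisenstein-killing triple with the scalar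
  `c₁` (station T3.18M upstairs, station T3.18R downstairs in the two types, Abel relation `c`).
* **`StepTQC327 F`** (NODE; `x = T_w`, `w ∉ S'`), **`StepSQC327 F`** (NODE; `x = S_w^{± 1}`),
  **`StepMQC327 F`** (NODE; `x = M_{w,d}`, `w` the complex place of `F`): the step.

## The step (construction: the header of `T7/B981/PairASpec.lean`, with these changes over `ℚ`)

* `ℓ = 2`; the places `w ∉ S'` of `F` are unramified (`3 ∈ S`); a prime `p ∉ S` is inert (ONE
  place `w`, residue degree `2`: downstairs the element of the spherical Hecke algebra of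
  `GL₂(ℚ_p)` with Satake transform `x² + y²` for `T_w`, `(x y)^{± 2}` for `S_w^{± 1}`,
  `T6.BCExistsC`) or split (TWO places; downstairs the same element as upstairs at the place
  `w`, in the coordinates of the ONE enumeration of `LocHypQ298b`; the spherical Hecke algebra
  is commutative).
* BOTH types `t = w0, w1` downstairs get THE SAME finite components (the step at a finite place
  does not touch the archimedean component, so the type `t.type` and the Abel relation are
  preserved).
* `x = M_{w,d}`: upstairs the sphere mean of radius `d` in the right variable (as in the cubic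
  case).  Downstairs the real place does NOT split: the archimedean component of type `t` is
  convolved (on the right) with a function `κ_{t,d}` on `GL₂(ℝ)` of the type `t` whose operator
  on the functions of type `t` with eigen-data `c` is the multiplication by `C.m w d`
  (`IsBCDataQ`: the parameter upstairs is the base change of the parameter downstairs); the
  Abel relation `c` is preserved because the `N`-integral is multiplicative for convolutions
  (closed station T6.20x of helper680: `abelRelConvC680_closed`, `ConvTestRC680`,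
  `ConvTestCC680`) and the `N`-integrals of the two multipliers are in the Abel relation
  with the constant `1` (homogeneity: FALSITY CHECK (c)).

FALSITY CHECKS (helper327).  (a) The top uses NOTHING but the fields of `IsGoodAQ327`,
`IsStepAQ327`, `IsDnStabQ327`: it is an induction on the word and does not see the
construction.  (b) `wordEv (x :: X) C = x.ev C * wordEv X C`, so the step multiplies the
operators by `x.ev C` on the LEFT of the word, for BOTH types with the same `C`
(`IsBCDataQ t c C B.S` is a hypothesis of the field for each `t`).  (c) The constant of the shape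
is `1` before and after the step and the Abel constant `c` is the same before and after:
the step multiplies the `N`-integrals upstairs and downstairs by matched multipliers.
(d) The step nodes quantify over ALL good triples (not only those produced by the
construction); this is what the induction needs (the triple for `X` is a CHOICE), and it is what
the construction gives: no property of `R(φ) χ` is used in the step.  (e) The step nodes do not
mention `P`, `Φ` enters only through the common part `B`.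
-/

set_option autoImplicit false

open AutomorphicForm IsDedekindDomain NumberField MeasureTheory
open scoped ComplexConjugate

noncomputable section

namespace Fermat.Agent.LT.T7.AQ327

open Fermat.Agent.LT.H556 Fermat.Agent.LT.H556.A0 Fermat.Agent.LT.T7 Fermat.Agent.LT.T7.H305
  Fermat.Agent.LT.T7.L2Q Fermat.Agent.LT.T7.H893 Fermat.Agent.LT.T7.H962
  Fermat.Agent.LT.T7.H732 Fermat.Agent.LT.T7.MQ298 Fermat.Agent.LT.T7.CQ801

attribute [local instance] Fermat.Agent.LT.T5.instMeasurableSpaceG

/-! ## 1. The word-free properties, the step -/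

section Vocab

variable {F : Type} [Field F] [NumberField F]

/-- **THE WORD-FREE PROPERTIES** of a triple `(φ, f w0, f w1)` (`φ` over `F`, `f t` over `ℚ`):
the fields `up1_test`, `up1_ek`, `dn1_test`, `dn1_ek`, `up1_supp`, `dn1_supp`, `shape` of
`CQ801.IsPairAQ801` for ONE word. -/
structure IsGoodAQ327 (B : L2QBase962 F) (𝔫 : Ideal (𝓞 ℚ)) (c : ℂ)
    (T₀ : Finset (HeightOneSpectrum (𝓞 ℚ)))
    (n : HeightOneSpectrum (𝓞 F) → ℕ) (m : HeightOneSpectrum (𝓞 ℚ) → ℕ)
    (φ : G F → ℂ) (f : QWt → G ℚ → ℂ) : Prop where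
  up_test : T5.IsTestFn (upI (K' := F) 𝔫) T5.trivType φ
  up_ek : T5.IsEK B.R'.μ φ ∧ T5.IsEK B.R'.μ (T5.adjointFn φ)
  dn_test : ∀ t : QWt, T5.IsTestFn 𝔫 t.type (f t)
  dn_ek : ∀ t : QWt, T5.IsEK B.R.μ (f t) ∧ T5.IsEK B.R.μ (T5.adjointFn (f t))
  up_supp : ∃ C : Set (G F), IsCompact C ∧ T5.H32.IsIwSupported32 2 B.o C φ
  dn_supp : ∀ t : QWt,
    ∃ C : Set (G ℚ), IsCompact C ∧ T5.H32.IsIwSupported32 1 (fun _ => B.u) C (f t)
  shape : IsAvgPureQ801 (upI (K' := F) 𝔫) 𝔫 T₀ (LocAQ801 c T₀ n m) 1
    φ (f QWt.w0) (f QWt.w1)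

/-- **THE STEP RELATION**: `(φ', f')` is obtained from `(φ, f)` by the generator `x`: the
operators on the eigenfunctions are multiplied by `x(C)` (both types downstairs). -/
structure IsStepAQ327 (B : L2QBase962 F) (𝔫 : Ideal (𝓞 ℚ)) (x : Gen F)
    (φ : G F → ℂ) (f : QWt → G ℚ → ℂ) (φ' : G F → ℂ) (f' : QWt → G ℚ → ℂ) : Prop where
  up : ∀ (χ : G F → ℂ) (C : EigData F), IsEigFn B.𝔑₀ B.R'.r 2 B.o χ C →
    ∀ y : G F, T5.Rconv B.R'.μ φ' χ y = x.ev C * T5.Rconv B.R'.μ φ χ y
  dn : ∀ (t : QWt) (χ : G ℚ → ℂ) (c : EigData ℚ) (C : EigData F),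
    IsEigFnQ t 𝔫 B.R.r B.u χ c → IsBCDataQ t c C B.S →
    ∀ y : G ℚ, T5.Rconv B.R.μ (f' t) χ y = x.ev C * T5.Rconv B.R.μ (f t) χ y

/-- **THE OPERATORS OF THE BASE FUNCTIONS DOWNSTAIRS**: the fields `dn1_wfn`, `dn1_class`,
`dn1_comm` of `CQ801.IsPairAQ801` for the functions `f t = F₁ t []` (same statements). -/
structure IsDnStabQ327 (B : L2QBase962 F) (𝔫 : Ideal (𝓞 ℚ)) (f : QWt → G ℚ → ℂ) : Prop where
  wfn : ∀ (t : QWt) (ψ : G ℚ → ℂ), IsWFnQ t 𝔫 B.R.r B.u ψ →
    IsWFnQ t 𝔫 B.R.r B.u (T5.Rconv B.R.μ (f t) ψ)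
  cls : ∀ (t : QWt) (ψ : G ℚ → ℂ) (c : EigData ℚ), IsEigFnQ t 𝔫 B.R.r B.u ψ c →
    IsEigFnQ t 𝔫 B.R.r B.u (T5.Rconv B.R.μ (f t) ψ) c
  comm : ∀ (t : QWt) (ψ : G ℚ → ℂ), IsWFnQ t 𝔫 B.R.r B.u ψ →
    ∀ (H : Finset (G ℚ)) (z : G ℚ), IsIwCosetSystem B.u H → IsScalarUniformizerAt B.u z →
      (∀ x : G ℚ, T5.Rconv B.R.μ (f t) (iwOp B.u H ψ) x
        = iwOp B.u H (T5.Rconv B.R.μ (f t) ψ) x) ∧
      ∀ (k : ℤ) (x : G ℚ), T5.Rconv B.R.μ (f t) (shiftOp z k ψ) x
        = shiftOp z k (T5.Rconv B.R.μ (f t) ψ) x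

end Vocab

/-! ## 2. The nodes -/

section Nodes

variable (P : EKCond)
variable (F : Type) [Field F] [NumberField F]

/-- **NODE AQ.0 = BASE over `ℚ` (the empty word; T3.18M + T3.18R + base change).**  For a common
part of helper60 with `3 ∈ S`, every level with the level properties, the exponents of the level
and every constant `c ≠ 0` of the Abel relation: a scalar `c₁` and ONE triple `(φ, f w0, f w1)`
with the word-free properties, `R(φ) χ = c₁(C) χ` on the eigenfunctions of the base level
upstairs, `c₁ ≠ 0` on the class of `Φ`, and the three properties of `R(f t)` downstairs.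
Construction: docstring of `CQ801.PairAQC801` (the empty word). -/
def BaseAQC327 : Prop :=
  HasSqrtNegThree F → IsImagQuad F →
    ∀ Φ : HeckeEigensystem F ℂ, A0.IsCuspAdelicSph0 F Φ → ConstOnFibresQ Φ → P F Φ →
      ∀ B : L2Q.H60.L2QBase F, L2Q.H60.IsL2QBase Φ B → L2Q.H60.IsRamQ60 B →
      ∀ 𝔫 : Ideal (𝓞 ℚ), CQ57.IsLevQ57 (toBase962_732 B) 𝔫 →
      ∀ (T₀ : Finset (HeightOneSpectrum (𝓞 ℚ)))
        (n n₀ : HeightOneSpectrum (𝓞 F) → ℕ) (m : HeightOneSpectrum (𝓞 ℚ) → ℕ),
        CQ57.IsLevFnQ57 (toBase962_732 B) 𝔫 T₀ n n₀ m →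
        ∀ c : ℂ, c ≠ 0 →
          ∃ (c₁ : EigData F → ℂ) (φ : G F → ℂ) (f : QWt → G ℚ → ℂ),
            IsGoodAQ327 (toBase962_732 B) 𝔫 c T₀ n m φ f ∧
            (∀ (χ : G F → ℂ) (C : EigData F),
              IsEigFn (toBase962_732 B).𝔑₀ (toBase962_732 B).R'.r 2 (toBase962_732 B).o χ C →
              ∀ y : G F, T5.Rconv (toBase962_732 B).R'.μ φ χ y = c₁ C * χ y) ∧
            (∀ C : EigData F, C.AgreeOut (toBase962_732 B).S' (eigOf Φ) → c₁ C ≠ 0) ∧
            IsDnStabQ327 (toBase962_732 B) 𝔫 f

/-- The step for the generators `x` which satisfy `Q` (the common form of the three step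
nodes). -/
def StepGQC327 (Q : Gen F → Prop) : Prop :=
  HasSqrtNegThree F → IsImagQuad F →
    ∀ (Φ : HeckeEigensystem F ℂ) (B : L2Q.H60.L2QBase F), L2Q.H60.IsL2QBase Φ B →
      L2Q.H60.IsRamQ60 B →
      ∀ 𝔫 : Ideal (𝓞 ℚ), CQ57.IsLevQ57 (toBase962_732 B) 𝔫 →
      ∀ (T₀ : Finset (HeightOneSpectrum (𝓞 ℚ)))
        (n n₀ : HeightOneSpectrum (𝓞 F) → ℕ) (m : HeightOneSpectrum (𝓞 ℚ) → ℕ),
        CQ57.IsLevFnQ57 (toBase962_732 B) 𝔫 T₀ n n₀ m →
        ∀ c : ℂ, c ≠ 0 →
        ∀ x : Gen F, Q x → x.Out (toBase962_732 B).S' →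
        ∀ (φ : G F → ℂ) (f : QWt → G ℚ → ℂ),
          IsGoodAQ327 (toBase962_732 B) 𝔫 c T₀ n m φ f →
          ∃ p : (G F → ℂ) × (QWt → G ℚ → ℂ),
            IsGoodAQ327 (toBase962_732 B) 𝔫 c T₀ n m p.1 p.2 ∧
              IsStepAQ327 (toBase962_732 B) 𝔫 x φ f p.1 p.2

/-- **NODE AQ.1 = STEP-T over `ℚ`** (`x = T_w`, `w ∉ S'` a finite place of `F`).  Upstairs
`φ'(g) = q_w^{-1/2} ∑_{h ∈ H} φ(g z⁻¹ h)` (`H` a Hecke coset system at `w`, `z` a scalar
uniformiser at `w`); downstairs, for BOTH types, the base change at the prime `p` under `w`: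
`p` inert: `f t ⋆` the spherical element with Satake transform `x² + y²` (`T6.BCExistsC`);
`p` split: `f' t (g) = p^{-1/2} ∑_{h ∈ H_p} f t (g z_p⁻¹ h)`.  See the header. -/
def StepTQC327 : Prop :=
  StepGQC327 F fun x => ∃ w : HeightOneSpectrum (𝓞 F), x = Gen.T w

/-- **NODE AQ.2 = STEP-S over `ℚ`** (`x = S_w` or `x = S_w⁻¹`, `w ∉ S'`).  `φ' = φ(· z^{∓ 1})`,
`z` a scalar uniformiser at `w`; downstairs `f' t = f t (· z_p^{∓ e})`, `z_p` a scalar
uniformiser at the prime `p` under `w`, `e` the residue degree of `w` (`2` or `1`). -/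
def StepSQC327 : Prop :=
  StepGQC327 F fun x => ∃ w : HeightOneSpectrum (𝓞 F), x = Gen.S w ∨ x = Gen.Sinv w

/-- **NODE AQ.3 = STEP-M over `ℚ`** (`x = M_{w,d}`, `w` an infinite place of `F`, `d : ℝ`).
Upstairs the sphere mean of radius `d` in the right variable; downstairs, for each type `t`, the
right convolution of the archimedean component with a function on `GL₂(ℝ)` of the type `t` with
the matched multiplier (`IsBCDataQ`: `C.m w` is determined by the archimedean parameter of `c`).
See the header (the Abel relation is preserved: closed station T6.20x). -/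
def StepMQC327 : Prop :=
  StepGQC327 F fun x => ∃ (w : InfinitePlace F) (d : ℝ), x = Gen.M w d

end Nodes

/-! ## Appendix: the equation lemmas of the definitions of this file are realised HERE -/

theorem eqns_realised_pairAQ327 : True := by
  have _h0_0 := @BaseAQC327.eq_1
  have _h0_1 := @BaseAQC327.eq_def
  have _h0_2 := @BaseAQC327.eq_unfold
  have _h1_0 := @StepGQC327.eq_1
  have _h1_1 := @StepGQC327.eq_def
  have _h1_2 := @StepGQC327.eq_unfold
  have _h2_0 := @StepTQC327.eq_1
  have _h2_1 := @StepTQC327.eq_def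
  have _h2_2 := @StepTQC327.eq_unfold
  have _h3_0 := @StepSQC327.eq_1
  have _h3_1 := @StepSQC327.eq_def
  have _h3_2 := @StepSQC327.eq_unfold
  have _h4_0 := @StepMQC327.eq_1
  have _h4_1 := @StepMQC327.eq_def
  have _h4_2 := @StepMQC327.eq_unfold
  trivial

end Fermat.Agent.LT.T7.AQ327

end
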